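import Fermat.Agent.DR.Hecke.DR3

set_option autoImplicit false
set_option linter.style.haveILetI false
set_option linter.unusedSectionVars false

/-!
# S41 / GOOD : reduction formulas for `α^*`, `β^*` on the `∞`-component

* `KoneSub R m` : `Kone R m` is a subgroup;
* `UqKV_bPull` : `U_q β^* y = q α^* y`;
* `bPull_frob_sub_mem_Kone` : `β^* (φ y) - q α^* y ∈ ker red_∞`  ("`β = Frobenius`, `F^* = q φ⁻¹`").
-/

noncomputable section

namespace Fermat.Agent.S41.Good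

open AlgebraicCurve ModularCurve Fermat.Agent.S24 Fermat.Agent.GAL Fermat.Agent.GAL.Hecke
  Fermat.Agent.GAL.Gauss Fermat.Agent.GAL.RED Fermat.Agent.DR Fermat.Agent.DR.Gal
  Fermat.Agent.DR.Hecke

section Abs

variable {K F k Fb : Type*} [Field K] [Field F] [Algebra K F] [Field k] [Field Fb] [Algebra k Fb]

/-- `Kone R m` as a subgroup. -/
def KoneSub (R : RedData K F k Fb) (m : ℕ) : AddSubgroup (KV K F m) where
  carrier := Kone R m
  zero_mem' := ⟨1, KV.mk_one, by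
    have h : (1 : F) ∈ R.O := R.O.one_mem
    show R.red (1 : F) = 1
    rw [R.red_of_mem h]
    exact map_one R.res⟩
  add_mem' := by
    rintro _ _ ⟨f, rfl, hf⟩ ⟨g, rfl, hg⟩
    refine ⟨f * g, KV.mk_mul f g, ?_⟩
    have hf' : ((f : Fˣ) : F) ∈ R.O := R.mem_of_red_ne_zero (by rw [hf]; exact one_ne_zero)
    have hg' : ((g : Fˣ) : F) ∈ R.O := R.mem_of_red_ne_zero (by rw [hg]; exact one_ne_zero)
    show R.red (((f : Fˣ) : F) * ((g : Fˣ) : F)) = 1
    rw [R.red_mul hf' hg', hf, hg, one_mul]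
  neg_mem' := by
    rintro _ ⟨f, rfl, hf⟩
    refine ⟨f⁻¹, KV.mk_inv f, ?_⟩
    show R.red (((f : Fˣ)⁻¹ : Fˣ) : F) = 1
    rw [Units.val_inv_eq_inv_val, R.red_inv, hf, inv_one]

theorem mem_KoneSub {R : RedData K F k Fb} {m : ℕ} {x : KV K F m} :
    x ∈ KoneSub R m ↔ x ∈ Kone R m := Iff.rfl

end Abs

variable (A : ValuationSubring Kbar) (M q : ℕ) [NeZero M] [NeZero q] (hq : q.Prime)
  (hqM : ¬ q ∣ M) (hA : A.LiesOverPrime q)

/-- `U_q β^* y = q α^* y`. -/
theorem UqKV_bPull {m : ℕ} (y : KV Kbar (FN M) m) :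
    UqKV M q hq hqM m (bPull M q m y) = q • aPull M q m y := by
  rw [UqKV_eq, wKV_bPull, aPush_aPull hq hqM, map_nsmul, succ_nsmul, add_sub_cancel_right]

/-- **`β^* (φ y) - q α^* y ∈ ker red_∞`.** -/
theorem bPull_frob_sub_mem_Kone {m : ℕ} (hm : 0 < m) (σ : GQ) (hσ : A.IsFrobeniusAt σ q)
    (y : KV Kbar (FN M) m) :
    bPull M q m (σ • y) - q • aPull M q m y ∈ Kone (Conc.R1 A M q hq hqM hA) m := by
  haveI : Fact q.Prime := ⟨hq⟩
  haveI := charP_residueField A hq hA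
  haveI := perfectRing_residueField q A
  have h := frob_sub_UqKV_mem_Kone A M q hq hqM hA hm σ hσ (bPull M q m y)
  rwa [UqKV_bPull, ← bPull_smul] at h

end Fermat.Agent.S41.Good
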