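import Fermat.Agent.S41.Good.Inj
import Fermat.Agent.S41.Ihara.Contracts
import Fermat.Agent.DR.Bridge
import Fermat.Agent.DR.Conc.Export

set_option autoImplicit false
set_option linter.style.haveILetI false
set_option linter.unusedSectionVars false

/-!
# S41 / GOOD : the two contracts `FrobRelC`, `ToricC` of `S41/Ihara/Contracts.lean`

* `frob_rel` : `α^* x + β^* y = 0 ⇒ φ x + q y = 0 ∧ q x + φ y = 0` (any level `M`, `q ∤ M m`);
* `mem_KtorC` : `φ x = x`, `m ∣ q + 1 ⇒ α^* x + β^* x ∈ K_tor`;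
* `toric_of_mem_KtorC` : a class of `K_tor` has ONE representative reducing to `1` on both components;
* `frobRelC : FrobRelC`, `toricC : ToricC`.
-/

noncomputable section

namespace Fermat.Agent.S41.Good

open AlgebraicCurve ModularCurve Fermat.Agent.S24 Fermat.Agent.GAL Fermat.Agent.GAL.Hecke
  Fermat.Agent.GAL.Gauss Fermat.Agent.GAL.RED Fermat.Agent.DR Fermat.Agent.DR.Gal
  Fermat.Agent.DR.Hecke

variable (A : ValuationSubring Kbar) (M q : ℕ) [NeZero M] [NeZero q] (hq : q.Prime)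
  (hqM : ¬ q ∣ M) (hA : A.LiesOverPrime q)

include hq hqM hA in
/-- half of the normal form. -/
theorem frob_rel_aux {m : ℕ} (hm : 0 < m) (hqm : ¬ q ∣ m) (σ : GQ) (hσ : A.IsFrobeniusAt σ q)
    (x y : KV Kbar (FN M) m) (h : aPull M q m x + bPull M q m y = 0) : σ • x + q • y = 0 := by
  have h1 := bPull_frob_sub_mem_Kone A M q hq hqM hA hm σ hσ (σ⁻¹ • y)
  rw [smul_inv_smul] at h1
  have h2 : bPull M q m y - q • aPull M q m (σ⁻¹ • y) = - aPull M q m (x + q • σ⁻¹ • y) := by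
    rw [map_add, map_nsmul, neg_add, ← sub_eq_add_neg]
    congr 1
    exact (neg_eq_of_add_eq_zero_right h).symm
  rw [h2] at h1
  have h3 : aPull M q m (x + q • σ⁻¹ • y) ∈ Kone (Conc.R1 A M q hq hqM hA) m := by
    have := (KoneSub (Conc.R1 A M q hq hqM hA) m).neg_mem h1
    rwa [neg_neg] at this
  have h4 := eq_zero_of_aPull_mem_Kone A M q hq hqM hA hqm _ h3
  have h5 := congrArg (fun z => σ • z) h4
  simp only [smul_add, smul_zero] at h5
  rw [smul_comm σ q, smul_inv_smul] at h5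
  exact h5

include hq hqM hA in
/-- **(K1), normal form.** -/
theorem frob_rel {m : ℕ} (hm : 0 < m) (hqm : ¬ q ∣ m) (σ : GQ) (hσ : A.IsFrobeniusAt σ q)
    (x y : KV Kbar (FN M) m) (h : aPull M q m x + bPull M q m y = 0) :
    σ • x + q • y = 0 ∧ q • x + σ • y = 0 := by
  refine ⟨frob_rel_aux A M q hq hqM hA hm hqm σ hσ x y h, ?_⟩
  have h' : aPull M q m y + bPull M q m x = 0 := by
    have := congrArg (wKV M q hq hqM m) h
    rw [map_add, wKV_aPull, wKV_bPull, map_zero, add_comm] at this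
    exact this
  rw [add_comm]
  exact frob_rel_aux A M q hq hqM hA hm hqm σ hσ y x h'

/-- **(2b)** `α^* x + β^* x` is in `K_tor`. -/
theorem mem_KtorC {m : ℕ} (hm : 0 < m) (hqm : m ∣ q + 1) (σ : GQ) (hσ : A.IsFrobeniusAt σ q)
    (x : KV Kbar (FN M) m) (hx : σ • x = x) :
    aPull M q m x + bPull M q m x ∈ KtorC A M q hq hqM hA m := by
  have h1 := bPull_frob_sub_mem_Kone A M q hq hqM hA hm σ hσ x
  rw [hx] at h1
  have h0 : (q + 1) • aPull M q m x = 0 := by
    obtain ⟨c, hc⟩ := hqm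
    rw [hc, mul_comm m c, mul_smul, KV.nsmul_eq_zero, smul_zero]
  have h2 : bPull M q m x - q • aPull M q m x = aPull M q m x + bPull M q m x := by
    rw [succ_nsmul] at h0
    rw [sub_eq_add_neg, neg_eq_of_add_eq_zero_right h0, add_comm]
  rw [h2] at h1
  refine ⟨h1, mem_Kone_R2_of_wKV A M q hq hqM hA ?_⟩
  rw [map_add, wKV_aPull, wKV_bPull, add_comm]
  exact h1

/-- a class of `K_tor` has one representative which reduces to `1` on both components. -/
theorem toric_of_mem_KtorC {m : ℕ} {t : KV Kbar (FN (M * q)) m}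
    (ht : t ∈ KtorC A M q hq hqM hA m) :
    ∃ f : kummerUnits Kbar (FN (M * q)) m, KV.mk f = t ∧
      (Conc.TT A M q hq hqM hA).red ((f : (FN (M * q))ˣ) : FN (M * q)) = 1 := by
  obtain ⟨f, c, hf, hn⟩ := exists_isNorm_of_mem_Ktor (XX A M q hq hqM hA 0 0 ∅)
    (Conc.pairSurj_gal A M q hq hqM hA 0 0 ∅) (Conc.R2_scale A M q hq hqM hA) ht
  obtain ⟨h₀, hh⟩ := Bridge.exists_isUntwist (Conc.TT_sep A M q hq hqM hA) hn.c_ne
  have hn' : IsNorm (Bridge.toTwoRed (Conc.TT A M q hq hqM hA) 0 0 ∅) m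
      ((f : (FN (M * q))ˣ) : FN (M * q)) c := ⟨hn.c_ne, hn.red1, hn.red2⟩
  have hr := hh.red_eq_one hn'
  obtain ⟨H, hH⟩ : ∃ H : (FN (M * q))ˣ, (H : FN (M * q)) = h₀ := ⟨Units.mk0 h₀ hh.ne_zero, rfl⟩
  refine ⟨f * ⟨H ^ m, pow_mem_kummerUnits m H⟩, ?_, ?_⟩
  · rw [KV.mk_mul, hf, add_eq_left, KV.mk_eq_zero_iff]
    exact ⟨H, rfl⟩
  · rw [Subgroup.coe_mul, Units.val_mul]
    show (Conc.TT A M q hq hqM hA).red (((f : (FN (M * q))ˣ) : FN (M * q)) *
      ((H ^ m : (FN (M * q))ˣ) : FN (M * q))) = 1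
    rw [Units.val_pow_eq_pow_val, hH]
    exact hr

end Fermat.Agent.S41.Good

namespace Fermat.Agent.S41

open AlgebraicCurve ModularCurve Fermat.Agent.S24 Fermat.Agent.GAL Fermat.Agent.GAL.Hecke

/-- **block GOOD, first half.** -/
theorem frobRelC : FrobRelC := by
  intro p M ℓ _ _ hp _ hℓ hℓM hℓp x y h A φ hA hφ
  exact Good.frob_rel A M ℓ hℓ hℓM hA hp.pos
    (fun hd => hℓp ((Nat.prime_dvd_prime_iff_eq hℓ hp).1 hd)) φ hφ x y h

/-- **block GOOD, second half.** -/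
theorem toricC : ToricC := by
  intro p M r _ _ hp _ hr hrM _ hpr A φ hA hφ x hx
  exact Good.toric_of_mem_KtorC A M r hr hrM hA
    (Good.mem_KtorC A M r hr hrM hA hp.pos (by exact_mod_cast hpr) φ hφ x hx)

end Fermat.Agent.S41
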