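import Fermat.Agent.S41.Good.Basic
import Fermat.Agent.GAL.KL.All

set_option autoImplicit false
set_option linter.style.haveILetI false
set_option linter.unusedSectionVars false

/-!
# S41 / GOOD : injectivity of the reduction on the `∞`-component

`eq_zero_of_aPull_mem_Kone` : `α^* y ∈ ker red_∞ ⇒ y = 0`, for `y ∈ V_m(F(M))`, `q ∤ m M`.
-/

noncomputable section

namespace Fermat.Agent.S41.Good

open AlgebraicCurve ModularCurve Fermat.Agent.S24 Fermat.Agent.GAL Fermat.Agent.GAL.Hecke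
  Fermat.Agent.GAL.Gauss Fermat.Agent.GAL.RED Fermat.Agent.DR Fermat.Agent.DR.Gal
  Fermat.Agent.DR.Hecke

/-- an identity in fields. -/
theorem inj_alg_identity {F F' : Type*} [Field F] [Field F'] (α : F →+* F') (f h1 c : F)
    (h0 a' g : F') (m : ℕ) (hh : h0 ^ m * α f = g) (hc : α c = a'⁻¹) (ha' : a' ≠ 0)
    (hh0 : h0 ≠ 0) : α ((h1 * c) ^ m * f) = g * (α h1 * (a' * h0)⁻¹) ^ m := by
  rw [map_mul, map_pow, map_mul, hc, ← hh, mul_pow, mul_pow, mul_inv, mul_pow, inv_pow, inv_pow]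
  have h1' : h0 ^ m ≠ 0 := pow_ne_zero _ hh0
  field_simp

/-- the abstract computation. -/
theorem inj_red_eq_one {K F F' k Fb : Type*} [Field K] [Field F] [Algebra K F] [Field F']
    [Algebra K F'] [Field k] [Field Fb] [Algebra k Fb] (R : RedData K F' k Fb) (α : F →ₐ[K] F')
    (f h1 : F) (g h0 : F') (a : K) (m : ℕ) (ha : a ≠ 0) (hh0 : h0 ≠ 0) (hh : h0 ^ m * α f = g)
    (hgr : R.red g = 1) (hah : R.red (algebraMap K F' a * h0) ≠ 0)
    (hαh1 : R.red (α h1) = R.red (algebraMap K F' a * h0)) :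
    R.red (α ((h1 * algebraMap K F a⁻¹) ^ m * f)) = 1 := by
  have e := inj_alg_identity (α : F →+* F') f h1 (algebraMap K F a⁻¹) h0 (algebraMap K F' a) g m hh
    (by
      show α (algebraMap K F a⁻¹) = _
      rw [AlgHom.commutes, map_inv₀]) ((map_ne_zero _).2 ha) hh0
  have e' : α ((h1 * algebraMap K F a⁻¹) ^ m * f) =
      g * (α h1 * (algebraMap K F' a * h0)⁻¹) ^ m := e
  have hgO : g ∈ R.O := R.mem_of_red_ne_zero (by rw [hgr]; exact one_ne_zero)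
  have hαh1O : α h1 ∈ R.O := R.mem_of_red_ne_zero (by rw [hαh1]; exact hah)
  rw [e', R.red_mul hgO (R.O.pow_mem (R.O.mul_mem _ _ hαh1O (R.inv_mem_of_red_ne_zero hah)) m),
    hgr, one_mul, R.red_pow, R.red_mul hαh1O (R.inv_mem_of_red_ne_zero hah), R.red_inv, hαh1,
    mul_inv_cancel₀ hah, one_pow]

/-- `INJ` in the language of the Gauss valuation ring. -/
theorem mk_eq_zero_of_gRes_eq_one (A : ValuationSubring Kbar) (M : ℕ) [NeZero M] {m : ℕ}
    (hM : ((M : ℕ) : IsLocalRing.ResidueField ↥A) ≠ 0) (hinj : INJ M m A)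
    (u : kummerUnits Kbar (FN M) m)
    (hu : (((u : (FN M)ˣ) : FN M) : LaurentSeries Kbar) ∈ gRing A)
    (h1 : gRes A ⟨_, hu⟩ = 1) : KV.mk u = 0 := by
  obtain ⟨n, z, -, hz, -, -⟩ := exists_gaussBasis A M hM
  have huF : (((u : (FN M)ˣ) : FN M) : LaurentSeries Kbar) ∈ modularFunctionFieldFullC Kbar M := by
    rw [← modularFunctionFieldBar_eq_fullC]
    exact ((u : (FN M)ˣ) : FN M).2
  obtain ⟨w, S, hS, hw, -, e⟩ := hz.isFrac ⟨_, hu⟩ huF
  have hSne := pA_evA_ne_zero A S hS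
  have h2 := IsFrac.gRes_eq A (y := ⟨_, hu⟩) hS e
  rw [h1, eq_comm, div_eq_one_iff_eq hSne] at h2
  rw [KV.mk_eq_zero_iff]
  refine hinj w (evA A S) ?_ ?_ h2 hSne (u : (FN M)ˣ) ?_ u.2
  · rw [modularFunctionFieldBar_eq_fullC]; exact hw
  · rw [modularFunctionFieldBar_eq_fullC]; exact adjoin_j_le Kbar M (iA_evA_mem A S)
  · rw [mul_comm]; exact e

variable (A : ValuationSubring Kbar) (M q : ℕ) [NeZero M] [NeZero q] (hq : q.Prime)
  (hqM : ¬ q ∣ M) (hA : A.LiesOverPrime q)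

set_option maxHeartbeats 200000 in
/-- a Kummer unit of level `M` whose image at level `M q` reduces to `1` is trivial. -/
theorem mk_eq_zero_of_R1_red_alpha {m : ℕ} (hqm : ¬ q ∣ m) (u : kummerUnits Kbar (FN M) m)
    (hred : (Conc.R1 A M q hq hqM hA).red (heckeAlphaBar Kbar M q (((u : (FN M)ˣ)) : FN M)) = 1) :
    KV.mk u = 0 := by
  have hMk : ((M : ℕ) : IsLocalRing.ResidueField ↥A) ≠ 0 := natCast_residue_ne_zero A hq hA hqM
  have hmk : ((m : ℕ) : IsLocalRing.ResidueField ↥A) ≠ 0 := natCast_residue_ne_zero A hq hA hqm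
  have hinj : INJ M m A := KL.klAll M (NeZero.ne M) A m hMk hmk
  have hmem : ((heckeAlphaBar Kbar M q (((u : (FN M)ˣ)) : FN M) : FN (M * q)) :
      LaurentSeries Kbar) ∈ gRing A :=
    (Conc.mem_R1_O_iff A M q hq hqM hA _).1
      ((Conc.R1 A M q hq hqM hA).mem_of_red_ne_zero (by rw [hred]; exact one_ne_zero))
  have h3 := Conc.coe_R1_red A M q hq hqM hA _ hmem
  rw [hred, IntermediateField.coe_one] at h3
  have hc : ((heckeAlphaBar Kbar M q (((u : (FN M)ˣ)) : FN M) : FN (M * q)) :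
      LaurentSeries Kbar) = ((((u : (FN M)ˣ)) : FN M) : LaurentSeries Kbar) :=
    coe_heckeAlphaBar M q (((u : (FN M)ˣ)) : FN M)
  generalize ((heckeAlphaBar Kbar M q (((u : (FN M)ˣ)) : FN M) : FN (M * q)) :
      LaurentSeries Kbar) = z at hmem h3 hc
  subst hc
  exact mk_eq_zero_of_gRes_eq_one A M hMk hinj u hmem h3.symm

set_option maxHeartbeats 200000 in
/-- lifting the residue field to level `M`. -/
theorem exists_lift_R1 (hb : Igusa.E (IsLocalRing.ResidueField ↥A) M) :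
    ∃ h1 : FN M, (Conc.R1 A M q hq hqM hA).red (heckeAlphaBar Kbar M q h1) = hb := by
  have hMk : ((M : ℕ) : IsLocalRing.ResidueField ↥A) ≠ 0 := natCast_residue_ne_zero A hq hA hqM
  obtain ⟨y0, hy0F, hy0⟩ := gRes_surjective A M hMk (hb : LaurentSeries _) hb.2
  have hy0F' : (y0 : LaurentSeries Kbar) ∈ modularFunctionFieldBar M := by
    rw [modularFunctionFieldBar_eq_fullC]; exact hy0F
  refine ⟨⟨y0, hy0F'⟩, ?_⟩
  have hαh1mem : ((heckeAlphaBar Kbar M q (⟨y0, hy0F'⟩ : FN M) : FN (M * q)) :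
      LaurentSeries Kbar) ∈ gRing A := by
    rw [coe_heckeAlphaBar]; exact y0.2
  apply Subtype.ext
  rw [Conc.coe_R1_red A M q hq hqM hA _ hαh1mem, ← hy0]
  congr 1

set_option maxHeartbeats 200000 in
/-- **(INJ)** `α^* y ∈ ker red_∞ ⇒ y = 0`. -/
theorem eq_zero_of_aPull_mem_Kone {m : ℕ} (hqm : ¬ q ∣ m) (y : KV Kbar (FN M) m)
    (h : aPull M q m y ∈ Kone (Conc.R1 A M q hq hqM hA) m) : y = 0 := by
  obtain ⟨f, rfl⟩ := KV.mk_surjective y
  obtain ⟨g, hg, hgr⟩ := h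
  rw [aPull_mk, KV.mk_eq_mk_iff] at hg
  obtain ⟨h0, hh⟩ := hg
  obtain ⟨a, ha, hah⟩ := Conc.R1_scale A M q hq hqM hA (h0 : FN (M * q)) h0.ne_zero
  obtain ⟨h1, hαh1⟩ := exists_lift_R1 A M q hq hqM hA
    ((Conc.R1 A M q hq hqM hA).red (algebraMap Kbar (FN (M * q)) a * (h0 : FN (M * q))))
  have hh1 : h1 ≠ 0 := by
    rintro rfl
    rw [map_zero, RedData.red_zero] at hαh1
    exact hah hαh1.symm
  have hane : algebraMap Kbar (FN M) a⁻¹ ≠ 0 := (map_ne_zero _).2 (inv_ne_zero ha)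
  obtain ⟨Y, hY⟩ : ∃ Y : (FN M)ˣ, (Y : FN M) = h1 * algebraMap Kbar (FN M) a⁻¹ :=
    ⟨Units.mk0 _ (mul_ne_zero hh1 hane), rfl⟩
  obtain ⟨u, hu⟩ : ∃ u : kummerUnits Kbar (FN M) m, (u : (FN M)ˣ) = Y ^ m * (f : (FN M)ˣ) :=
    ⟨⟨Y ^ m * (f : (FN M)ˣ), mul_mem (pow_mem_kummerUnits m Y) f.2⟩, rfl⟩
  have hu_eq : KV.mk u = KV.mk f := (KV.mk_eq_mk_iff u f).2 ⟨Y, hu.symm⟩
  rw [← hu_eq]
  have hh' : (h0 : FN (M * q)) ^ m * heckeAlphaBar Kbar M q ((f : (FN M)ˣ) : FN M) =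
      ((g : (FN (M * q))ˣ) : FN (M * q)) := by
    rw [← hh, Units.val_mul, Units.val_pow_eq_pow_val]
    rfl
  apply mk_eq_zero_of_R1_red_alpha A M q hq hqM hA hqm u
  rw [hu, Units.val_mul, Units.val_pow_eq_pow_val, hY]
  exact inj_red_eq_one (Conc.R1 A M q hq hqM hA) (heckeAlphaBar Kbar M q) _ h1 _ _ a m ha
    h0.ne_zero hh' hgr hah hαh1

end Fermat.Agent.S41.Good
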